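/-
P-MW / MW-A1 (helper60): calculus of `q`-orders at a cusp, for the row MW-A1-ANLOC-CUSP.

For a function `f` on `ℍ` and the local parameter `q = exp (2πi z / w)`:
* `QBig w k f` : `f = q ^ k * g(q)` for `Im z` large, with `g` analytic at `0` (`f = O(q ^ k)`);
* `QOrd w n f` : the same with `g 0 ≠ 0` (`f` has order exactly `n`).
Closure properties, the bound `‖f z‖ ≤ C exp (-(2π/w) Im z)` for `QBig w 1 f`, the order of a
periodic holomorphic function of moderate growth (`qOrd_of_cusp`), the logarithmic derivative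
(`QOrd.logDeriv`) and the chain rule for `z ↦ A (δ z)` (`deriv_comp_smul`).
-/
import Mathlib
import Fermat.Agent.H60.EsACusp

set_option autoImplicit false

noncomputable section

open UpperHalfPlane Function Complex Filter
open scoped MatrixGroups Manifold Topology Real

namespace Fermat.Agent.H60.MWDiv

/-- The local parameter `exp (2πi z / w)` at the cusp of width `w`. -/
def qw (w : ℕ) (z : ℍ) : ℂ := Periodic.qParam (w : ℝ) (z : ℂ)

theorem qw_ne_zero (w : ℕ) (z : ℍ) : qw w z ≠ 0 := Periodic.qParam_ne_zero _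

theorem norm_qw (w : ℕ) (z : ℍ) : ‖qw w z‖ = Real.exp (-2 * π * z.im / w) :=
  Periodic.norm_qParam _ _

/-- `qw` tends to `0` at the cusp. -/
theorem exists_im_forall_qw_mem {w : ℕ} (hw : 0 < w) {p : ℂ → Prop}
    (hp : ∀ᶠ t in 𝓝 (0 : ℂ), p t) : ∃ Y : ℝ, ∀ z : ℍ, Y ≤ z.im → p (qw w z) := by
  have hw' : (0 : ℝ) < w := by exact_mod_cast hw
  have h1 := (Periodic.qParam_tendsto hw').eventually (hp.filter_mono nhdsWithin_le_nhds)
  rw [Filter.eventually_comap] at h1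
  obtain ⟨R, hR⟩ := Filter.eventually_atTop.mp h1
  exact ⟨R, fun z hz => hR z.im hz (z : ℂ) rfl⟩

/-- `f = O(q ^ k)` at the cusp. -/
def QBig (w : ℕ) (k : ℤ) (f : ℍ → ℂ) : Prop :=
  ∃ g : ℂ → ℂ, AnalyticAt ℂ g 0 ∧ ∃ Y : ℝ, ∀ z : ℍ, Y ≤ z.im → f z = qw w z ^ k * g (qw w z)

/-- `f` has order exactly `n` at the cusp. -/
def QOrd (w : ℕ) (n : ℤ) (f : ℍ → ℂ) : Prop :=
  ∃ g : ℂ → ℂ, AnalyticAt ℂ g 0 ∧ g 0 ≠ 0 ∧
    ∃ Y : ℝ, ∀ z : ℍ, Y ≤ z.im → f z = qw w z ^ n * g (qw w z)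

variable {w : ℕ} {k k' n n' : ℤ} {f f' : ℍ → ℂ}

theorem QOrd.qBig (h : QOrd w n f) : QBig w n f := by
  obtain ⟨g, hg, -, Y, hY⟩ := h
  exact ⟨g, hg, Y, hY⟩

theorem QBig.congr (h : QBig w k f) (Y₀ : ℝ) (he : ∀ z : ℍ, Y₀ ≤ z.im → f' z = f z) :
    QBig w k f' := by
  obtain ⟨g, hg, Y, hY⟩ := h
  exact ⟨g, hg, max Y Y₀, fun z hz => by
    rw [he z (le_trans (le_max_right _ _) hz), hY z (le_trans (le_max_left _ _) hz)]⟩

theorem QOrd.congr (h : QOrd w n f) (Y₀ : ℝ) (he : ∀ z : ℍ, Y₀ ≤ z.im → f' z = f z) :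
    QOrd w n f' := by
  obtain ⟨g, hg, hg0, Y, hY⟩ := h
  exact ⟨g, hg, hg0, max Y Y₀, fun z hz => by
    rw [he z (le_trans (le_max_right _ _) hz), hY z (le_trans (le_max_left _ _) hz)]⟩

theorem qBig_zero (w : ℕ) (k : ℤ) : QBig w k (fun _ => 0) :=
  ⟨fun _ => 0, analyticAt_const, 0, fun z _ => by simp⟩

theorem qBig_const (w : ℕ) (c : ℂ) : QBig w 0 (fun _ => c) :=
  ⟨fun _ => c, analyticAt_const, 0, fun z _ => by simp⟩

theorem QBig.add (h : QBig w k f) (h' : QBig w k f') : QBig w k (fun z => f z + f' z) := by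
  obtain ⟨g, hg, Y, hY⟩ := h
  obtain ⟨g', hg', Y', hY'⟩ := h'
  refine ⟨fun t => g t + g' t, hg.add hg', max Y Y', fun z hz => ?_⟩
  beta_reduce
  rw [hY z (le_trans (le_max_left _ _) hz), hY' z (le_trans (le_max_right _ _) hz)]
  ring

theorem QBig.const_mul (h : QBig w k f) (c : ℂ) : QBig w k (fun z => c * f z) := by
  obtain ⟨g, hg, Y, hY⟩ := h
  refine ⟨fun t => c * g t, analyticAt_const.mul hg, Y, fun z hz => ?_⟩
  beta_reduce
  rw [hY z hz]
  ring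

theorem QBig.neg (h : QBig w k f) : QBig w k (fun z => -f z) := by
  have := h.const_mul (-1)
  refine this.congr 0 fun z _ => ?_
  ring

theorem QBig.sub (h : QBig w k f) (h' : QBig w k f') : QBig w k (fun z => f z - f' z) := by
  have := h.add h'.neg
  refine this.congr 0 fun z _ => ?_
  ring

theorem QBig.mul (h : QBig w k f) (h' : QBig w k' f') :
    QBig w (k + k') (fun z => f z * f' z) := by
  obtain ⟨g, hg, Y, hY⟩ := h
  obtain ⟨g', hg', Y', hY'⟩ := h'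
  refine ⟨fun t => g t * g' t, hg.mul hg', max Y Y', fun z hz => ?_⟩
  beta_reduce
  rw [hY z (le_trans (le_max_left _ _) hz), hY' z (le_trans (le_max_right _ _) hz),
    zpow_add₀ (qw_ne_zero w z)]
  ring

theorem QBig.mono (h : QBig w k f) (hk : k' ≤ k) : QBig w k' f := by
  obtain ⟨g, hg, Y, hY⟩ := h
  obtain ⟨d, hd⟩ : ∃ d : ℕ, k = k' + d := ⟨(k - k').toNat, by omega⟩
  refine ⟨fun t => t ^ d * g t, (analyticAt_id.pow d).mul hg, Y, fun z hz => ?_⟩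
  beta_reduce
  rw [hY z hz, hd, zpow_add₀ (qw_ne_zero w z), zpow_natCast]
  ring

theorem QOrd.mul (h : QOrd w n f) (h' : QOrd w n' f') :
    QOrd w (n + n') (fun z => f z * f' z) := by
  obtain ⟨g, hg, hg0, Y, hY⟩ := h
  obtain ⟨g', hg', hg0', Y', hY'⟩ := h'
  refine ⟨fun t => g t * g' t, hg.mul hg', mul_ne_zero hg0 hg0', max Y Y', fun z hz => ?_⟩
  beta_reduce
  rw [hY z (le_trans (le_max_left _ _) hz), hY' z (le_trans (le_max_right _ _) hz),
    zpow_add₀ (qw_ne_zero w z)]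
  ring

theorem QOrd.div (h : QOrd w n f) (h' : QOrd w n' f') :
    QOrd w (n - n') (fun z => f z / f' z) := by
  obtain ⟨g, hg, hg0, Y, hY⟩ := h
  obtain ⟨g', hg', hg0', Y', hY'⟩ := h'
  refine ⟨fun t => g t / g' t, hg.div hg' hg0', div_ne_zero hg0 hg0', max Y Y', fun z hz => ?_⟩
  beta_reduce
  rw [hY z (le_trans (le_max_left _ _) hz), hY' z (le_trans (le_max_right _ _) hz),
    zpow_sub₀ (qw_ne_zero w z)]
  ring

theorem QBig.div_qOrd (h : QBig w k f) (h' : QOrd w n f') :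
    QBig w (k - n) (fun z => f z / f' z) := by
  obtain ⟨g, hg, Y, hY⟩ := h
  obtain ⟨g', hg', hg0', Y', hY'⟩ := h'
  refine ⟨fun t => g t / g' t, hg.div hg' hg0', max Y Y', fun z hz => ?_⟩
  beta_reduce
  rw [hY z (le_trans (le_max_left _ _) hz), hY' z (le_trans (le_max_right _ _) hz),
    zpow_sub₀ (qw_ne_zero w z)]
  ring

/-- A function of exact order `n` does not vanish near the cusp. -/
theorem QOrd.eventually_ne (hw : 0 < w) (h : QOrd w n f) :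
    ∃ Y : ℝ, ∀ z : ℍ, Y ≤ z.im → f z ≠ 0 := by
  obtain ⟨g, hg, hg0, Y, hY⟩ := h
  obtain ⟨Y₁, hY₁⟩ := exists_im_forall_qw_mem hw (hg.continuousAt.eventually_ne hg0)
  refine ⟨max Y Y₁, fun z hz => ?_⟩
  rw [hY z (le_trans (le_max_left _ _) hz)]
  exact mul_ne_zero (zpow_ne_zero _ (qw_ne_zero w z)) (hY₁ z (le_trans (le_max_right _ _) hz))

/-- **Exponential decay** of a function with `f = O(q)`. -/
theorem QBig.bound (hw : 0 < w) (h : QBig w 1 f) :
    ∃ C Y ε : ℝ, 0 < ε ∧ ∀ z : ℍ, Y ≤ z.im → ‖f z‖ ≤ C * Real.exp (-ε * z.im) := by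
  obtain ⟨g, hg, Y, hY⟩ := h
  have hw' : (0 : ℝ) < w := by exact_mod_cast hw
  have hb : ∀ᶠ t in 𝓝 (0 : ℂ), ‖g t‖ < ‖g 0‖ + 1 :=
    hg.continuousAt.norm.eventually (gt_mem_nhds (lt_add_one _))
  obtain ⟨Y₁, hY₁⟩ := exists_im_forall_qw_mem hw hb
  refine ⟨‖g 0‖ + 1, max Y Y₁, 2 * π / w, by positivity, fun z hz => ?_⟩
  rw [hY z (le_trans (le_max_left _ _) hz), zpow_one, norm_mul, norm_qw, mul_comm]
  have e : -2 * π * z.im / w = -(2 * π / w) * z.im := by ring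
  rw [e]
  exact mul_le_mul_of_nonneg_right (hY₁ z (le_trans (le_max_right _ _) hz)).le
    (Real.exp_pos _).le

/-- **The order at the cusp** of a periodic holomorphic function of moderate growth. -/
theorem qOrd_of_cusp (hw : 0 < w) (hf : MDiff f)
    (hper : ∀ z : ℍ, f (ModularGroup.T ^ w • z) = f z)
    (hgrow : ∃ (M : ℕ) (C Y : ℝ), ∀ z : ℍ, Y ≤ z.im →
      ‖f z‖ ≤ C * Real.exp (2 * Real.pi * M * z.im))
    (hn : meromorphicOrderAt (Periodic.cuspFunction (w : ℝ) (f ∘ ofComplex)) 0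
      = ((n : ℤ) : WithTop ℤ)) :
    QOrd w n f := by
  have hmer := Fermat.Agent.H60.esa_cusp_mero w hw f hf hper hgrow
  obtain ⟨g, hg, hg0, hfg⟩ := (meromorphicOrderAt_eq_int_iff hmer).mp hn
  rw [eventually_nhdsWithin_iff] at hfg
  obtain ⟨Y, hY⟩ := exists_im_forall_qw_mem hw hfg
  refine ⟨g, hg, hg0, Y, fun z hz => ?_⟩
  have h1 := hY z hz (qw_ne_zero w z)
  have : NeZero w := ⟨hw.ne'⟩
  have h2 := Fermat.Agent.H82.cm_cuspFunction_qParam w f hper z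
  rw [qw] at h1 ⊢
  rw [h2] at h1
  simpa [sub_zero, smul_eq_mul] using h1

/-- Derivative of the local parameter. -/
theorem hasDerivAt_qParam (w : ℕ) (z : ℂ) :
    HasDerivAt (Periodic.qParam (w : ℝ)) (2 * π * Complex.I / w * Periodic.qParam (w : ℝ) z) z := by
  unfold Periodic.qParam
  have h1 : HasDerivAt (fun ζ : ℂ => 2 * π * Complex.I * ζ / ((w : ℝ) : ℂ)) (2 * π * Complex.I / ((w : ℝ) : ℂ)) z := by
    have := ((hasDerivAt_id z).const_mul (2 * π * Complex.I)).div_const ((w : ℝ) : ℂ)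
    simpa using this
  have h2 := h1.cexp
  refine h2.congr_deriv ?_
  push_cast
  ring

/-- **Logarithmic derivative at the cusp**: `f' / f = (2πi/w) n + O(q)`. -/
theorem QOrd.logDeriv (hw : 0 < w) (h : QOrd w n f) :
    QBig w 1 (fun z => deriv (f ∘ ofComplex) (z : ℂ) / f z - 2 * π * Complex.I / w * n) := by
  obtain ⟨g, hg, hg0, Y, hY⟩ := h
  have hgd : ∀ᶠ t in 𝓝 (0 : ℂ), DifferentiableAt ℂ g t ∧ g t ≠ 0 :=
    (hg.eventually_analyticAt.mono fun t ht => ht.differentiableAt).and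
      (hg.continuousAt.eventually_ne hg0)
  obtain ⟨Y₁, hY₁⟩ := exists_im_forall_qw_mem hw hgd
  refine ⟨fun t => 2 * π * Complex.I / w * (deriv g t / g t),
    analyticAt_const.mul (hg.deriv.div hg hg0), max (Y + 1) Y₁, fun z hz => ?_⟩
  have hzY : Y < z.im := lt_of_lt_of_le (lt_add_one Y) (le_trans (le_max_left _ _) hz)
  obtain ⟨hgdz, hgz⟩ := hY₁ z (le_trans (le_max_right _ _) hz)
  have hq0 : qw w z ≠ 0 := qw_ne_zero w z
  have hev : (f ∘ ofComplex) =ᶠ[𝓝 (z : ℂ)]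
      fun ζ => Periodic.qParam (w : ℝ) ζ ^ n * g (Periodic.qParam (w : ℝ) ζ) := by
    have hopen : IsOpen {ζ : ℂ | max Y 0 < ζ.im} :=
      isOpen_lt continuous_const Complex.continuous_im
    have hzmem : (z : ℂ) ∈ {ζ : ℂ | max Y 0 < ζ.im} := max_lt hzY z.im_pos
    filter_upwards [hopen.mem_nhds hzmem] with ζ hζ
    have hζ0 : 0 < ζ.im := lt_of_le_of_lt (le_max_right _ _) hζ
    have hζY : Y ≤ ζ.im := (lt_of_le_of_lt (le_max_left _ _) hζ).le
    simp only [comp_apply]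
    rw [ofComplex_apply_of_im_pos hζ0]
    exact hY ⟨ζ, hζ0⟩ hζY
  have hq' := hasDerivAt_qParam w (z : ℂ)
  have hpow : HasDerivAt (fun ζ => Periodic.qParam (w : ℝ) ζ ^ n)
      ((n : ℂ) * Periodic.qParam (w : ℝ) (z : ℂ) ^ (n - 1) *
        (2 * π * Complex.I / w * Periodic.qParam (w : ℝ) (z : ℂ))) (z : ℂ) :=
    (hasDerivAt_zpow n _ (Or.inl hq0)).comp (z : ℂ) hq'
  have hgq : HasDerivAt (fun ζ => g (Periodic.qParam (w : ℝ) ζ))
      (deriv g (Periodic.qParam (w : ℝ) (z : ℂ)) *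
        (2 * π * Complex.I / w * Periodic.qParam (w : ℝ) (z : ℂ))) (z : ℂ) :=
    hgdz.hasDerivAt.comp (z : ℂ) hq'
  have hd := ((hpow.mul hgq).congr_of_eventuallyEq hev).deriv
  have hfz := hY z hzY.le
  simp only [qw] at hfz hq0 hgz ⊢
  rw [hd, hfz, zpow_sub_one₀ hq0, zpow_one]
  field_simp
  ring

/-- **Chain rule** for the action of `SL(2, ℤ)`. -/
theorem deriv_comp_smul {A : ℍ → ℂ} (hA : MDiff A) (δ : SL(2, ℤ)) (z : ℍ) :
    deriv ((fun z : ℍ => A (δ • z)) ∘ ofComplex) (z : ℂ)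
      = deriv (A ∘ ofComplex) ((δ • z : ℍ) : ℂ) * (denom δ z ^ 2)⁻¹ := by
  have hdet : 0 < ((δ : GL (Fin 2) ℝ)).val.det := by
    have : ((δ : GL (Fin 2) ℝ)).val.det = 1 :=
      (Matrix.SpecialLinearGroup.map (Int.castRingHom ℝ) δ).det_coe
    rw [this]
    exact one_pos
  have hdet1 : ((δ : GL (Fin 2) ℝ)).val.det = 1 :=
    (Matrix.SpecialLinearGroup.map (Int.castRingHom ℝ) δ).det_coe
  have h1 : HasDerivAt (fun ζ : ℂ => (((δ : GL (Fin 2) ℝ) • ofComplex ζ : ℍ) : ℂ))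
      ((((δ : GL (Fin 2) ℝ)).val.det : ℂ) / denom (δ : GL (Fin 2) ℝ) z ^ 2) (z : ℂ) :=
    (UpperHalfPlane.hasStrictDerivAt_smul hdet z).hasDerivAt
  have hAd : DifferentiableAt ℂ (A ∘ ofComplex) ((δ • z : ℍ) : ℂ) := by
    rw [UpperHalfPlane.mdifferentiable_iff] at hA
    exact hA.differentiableAt (isOpen_upperHalfPlaneSet.mem_nhds (δ • z).im_pos)
  have h0 : (((δ : GL (Fin 2) ℝ) • ofComplex (z : ℂ) : ℍ) : ℂ) = ((δ • z : ℍ) : ℂ) := by
    rw [ofComplex_apply]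
    rfl
  have h2 : HasDerivAt (A ∘ ofComplex)
      (deriv (A ∘ ofComplex) ((δ • z : ℍ) : ℂ))
      (((δ : GL (Fin 2) ℝ) • ofComplex (z : ℂ) : ℍ) : ℂ) := by
    rw [h0]
    exact hAd.hasDerivAt
  have h3 := h2.comp (z : ℂ) h1
  have hfun : ((A ∘ ofComplex) ∘ fun ζ : ℂ => (((δ : GL (Fin 2) ℝ) • ofComplex ζ : ℍ) : ℂ))
      = (fun z : ℍ => A (δ • z)) ∘ ofComplex := by
    funext ζ
    simp only [comp_apply, ofComplex_apply]
    rfl
  rw [hfun] at h3
  rw [h3.deriv, hdet1]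
  simp only [Complex.ofReal_one, one_div]

end Fermat.Agent.H60.MWDiv

end
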