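/-
P-MW / MW-A1, row MW-A1-ANLOC-CUSP (helper60): the logarithmic form `(C / E) (A' / A - B' / B)`
attached to a differential of the third kind `G dy / y` tends to `2πi D(v) / w` exponentially
fast at the cusps (`Fermat.Agent.H84.MWDiv.LogFormCuspStatement`).
-/
import Fermat.Agent.H84.MWDiv.Interfaces2
import Fermat.Agent.H60.MWDiv.QOrd
import Fermat.Agent.H77.EsAMFFinal
import Fermat.Agent.H19.RH.RamIdx

set_option autoImplicit false

noncomputable section

open AlgebraicCurve UpperHalfPlane Function Complex Filter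
open scoped MatrixGroups Manifold Topology Real

namespace Fermat.Agent.H60.MWDiv

open Fermat.Agent.H23.EsA Fermat.Agent.H84.MWDiv

/-- The translate to the cusp `δ ∞` of a holomorphic representative of `x ≠ 0` has the order
`ord_v x` in the local parameter. -/
theorem rep_qOrd (N : ℕ) [NeZero N] {δ : SL(2, ℤ)} {v : Place ℂ ↥(FC N)} {w : ℕ}
    (hcusp : IsCuspPlace N δ v w) {x : ↥(FC N)} {X : ℍ → ℂ} (hx : x ≠ 0) (hX : Rep N X x) :
    QOrd w (v.ord x) (fun z => X (δ • z)) := by
  obtain ⟨hw, hconj, hord⟩ := hcusp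
  obtain ⟨hinv, hgrow⟩ := Fermat.Agent.H77.esg_repRegular N x X hX
  have hXd : MDiff X := Fermat.Agent.H44.LaurentRel.mdifferentiable hX
  have hmem : δ * ModularGroup.T ^ w * δ⁻¹ ∈ CongruenceSubgroup.Gamma0 N := by
    have := (hconj (w : ℤ)).mpr dvd_rfl
    rwa [zpow_natCast] at this
  refine qOrd_of_cusp hw (Fermat.Agent.H77.esg_mdiff_comp_smul hXd δ) (fun z => ?_) (hgrow δ)
    (hord x X hx hX)
  have h := hinv _ hmem (δ • z)
  have e' : (δ * ModularGroup.T ^ w * δ⁻¹) • (δ • z) = δ • (ModularGroup.T ^ w • z) := by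
    rw [← mul_smul, ← mul_smul, inv_mul_cancel_right]
  rw [← e']
  exact h

/-- `MDiff` of the translate. -/
theorem rep_mdiff_comp (N : ℕ) {x : ↥(FC N)} {X : ℍ → ℂ} (hX : Rep N X x) (δ : SL(2, ℤ)) :
    MDiff (fun z : ℍ => X (δ • z)) :=
  Fermat.Agent.H77.esg_mdiff_comp_smul (Fermat.Agent.H44.LaurentRel.mdifferentiable hX) δ

/-- The representative of `x + c * x'`. -/
theorem rep_add_const_mul (N : ℕ) {x x' : ↥(FC N)} {X X' : ℍ → ℂ} (hX : Rep N X x)
    (hX' : Rep N X' x') (c : ℂ) :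
    Rep N (fun z => X z + c * X' z) (x + algebraMap ℂ ↥(FC N) c * x') := by
  have h1 := Fermat.Agent.H44.LaurentRel.mul (Fermat.Agent.H44.laurentRel_const c) hX'
  have h := Fermat.Agent.H44.LaurentRel.add hX h1
  have e : ((x + algebraMap ℂ ↥(FC N) c * x' : ↥(FC N)) : LaurentSeries ℂ)
      = (x : LaurentSeries ℂ) + HahnSeries.C c * (x' : LaurentSeries ℂ) := by
    push_cast
    rw [ModularCurve.algebraMap_laurentSeries_eq_single]
    rfl
  have e2 : (fun z => X z + c * X' z) = X + (fun _ => c) * X' := rfl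
  unfold Fermat.Agent.H23.EsA.Rep
  rw [e, e2]
  exact h

/-- A function representing `0` is `0`. -/
theorem rep_zero_eq (N : ℕ) {X : ℍ → ℂ} (hX : Rep N X 0) : X = 0 :=
  Fermat.Agent.H44.LaurentRel.unique_left hX Fermat.Agent.H44.laurentRel_zero

/-- Derivative of `X + c X'`. -/
theorem dH_add_smul {X X' : ℍ → ℂ} (hX : MDiff X) (hX' : MDiff X') (c : ℂ) (z : ℍ) :
    dH (fun z => X z + c * X' z) z = dH X z + c * dH X' z := by
  have h1 : DifferentiableAt ℂ (X ∘ ofComplex) (z : ℂ) := by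
    rw [UpperHalfPlane.mdifferentiable_iff] at hX
    exact hX.differentiableAt (isOpen_upperHalfPlaneSet.mem_nhds z.im_pos)
  have h2 : DifferentiableAt ℂ (X' ∘ ofComplex) (z : ℂ) := by
    rw [UpperHalfPlane.mdifferentiable_iff] at hX'
    exact hX'.differentiableAt (isOpen_upperHalfPlaneSet.mem_nhds z.im_pos)
  have e : ((fun z => X z + c * X' z) ∘ ofComplex)
      = fun ζ => (X ∘ ofComplex) ζ + c * (X' ∘ ofComplex) ζ := rfl
  unfold dH
  rw [e]
  have h3 := (h1.hasDerivAt.add (h2.hasDerivAt.const_mul c)).deriv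
  exact h3

/-- If no `y - c` vanishes at `v` (and `y` has no pole), the ramification index is `0`. -/
theorem ramIdx_eq_zero_of_forall {K F : Type*} [Field K] [Field F] [Algebra K F]
    (v : Place K F) (y : F) (h0 : ¬ v.ord y < 0)
    (h : ∀ c : K, ¬ 0 < v.ord (y - algebraMap K F c)) :
    Fermat.Agent.H27.ESD.ramIdx y v = 0 := by
  unfold Fermat.Agent.H27.ESD.ramIdx
  rw [if_neg h0]
  have e : (fun c : K => (v.ord (y - algebraMap K F c)).toNat) = fun _ => 0 := by
    funext c
    have := h c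
    exact Int.toNat_eq_zero.mpr (not_lt.mp this)
  rw [e]
  exact ciSup_const

/-- The representative of `c * x'`. -/
theorem rep_const_mul (N : ℕ) {x' : ↥(FC N)} {X' : ℍ → ℂ} (hX' : Rep N X' x') (c : ℂ) :
    Rep N (fun z => c * X' z) (algebraMap ℂ ↥(FC N) c * x') := by
  have h1 := Fermat.Agent.H44.LaurentRel.mul (Fermat.Agent.H44.laurentRel_const c) hX'
  have e : ((algebraMap ℂ ↥(FC N) c * x' : ↥(FC N)) : LaurentSeries ℂ)
      = HahnSeries.C c * (x' : LaurentSeries ℂ) := by
    push_cast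
    rw [ModularCurve.algebraMap_laurentSeries_eq_single]
    rfl
  have e2 : (fun z => c * X' z) = (fun _ => c) * X' := rfl
  unfold Fermat.Agent.H23.EsA.Rep
  rw [e, e2]
  exact h1

/-- The algebraic identity `A'/A - B'/B = (U/A) (U'/U - B'/B)` for `U = A - c₀ B`. -/
theorem logForm_alg (g α β α' β' c₀ κ nU nB : ℂ) (hα : α ≠ 0) (hβ : β ≠ 0)
    (hu : α + -c₀ * β ≠ 0) :
    g * (α' / α - β' / β) =
      g * ((α + -c₀ * β) / α * (κ * (nU - nB) +
        ((α' + -c₀ * β') / (α + -c₀ * β) - κ * nU - (β' / β - κ * nB)))) := by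
  have e : κ * (nU - nB) + ((α' + -c₀ * β') / (α + -c₀ * β) - κ * nU - (β' / β - κ * nB))
      = (α' + -c₀ * β') / (α + -c₀ * β) - β' / β := by ring
  rw [e]
  have e2 : (α + -c₀ * β) / α * ((α' + -c₀ * β') / (α + -c₀ * β) - β' / β)
      = α' / α - β' / β := by
    rw [mul_sub, div_mul_div_comm, mul_comm (α + -c₀ * β) (α' + -c₀ * β'),
      mul_div_mul_right _ _ hu]
    field_simp
    ring
  rw [e2]

/-- **The key estimate**: the translate of the logarithmic form, minus its limit, is `O(q)`. -/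
theorem logForm_qBig (N : ℕ) [NeZero N] (y G : ↥(FC N)) (D : Divisor ℂ ↥(FC N))
    (A B C E : ℍ → ℂ) (a b c e : ↥(FC N)) (hb : b ≠ 0) (he : e ≠ 0) (hya : y * b = a)
    (hGc : G * e = c) (hA : Rep N A a) (hB : Rep N B b) (hC : Rep N C c) (hE : Rep N E e)
    (hy : Transcendental ℂ y) (hD0 : ∀ v : Place ℂ ↥(FC N), v.ord y = 0 → D v = 0)
    (h3 : IsThirdKind y G D) (δ : SL(2, ℤ)) (v : Place ℂ ↥(FC N)) (w : ℕ)
    (hcusp : IsCuspPlace N δ v w) :
    QBig w 1 (fun z => C (δ • z) / E (δ • z) *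
        (dH (fun z => A (δ • z)) z / A (δ • z) - dH (fun z => B (δ • z)) z / B (δ • z))
      - 2 * π * Complex.I * ((D v : ℤ) : ℂ) / w) := by
  have hw : 0 < w := hcusp.1
  have hy0 : y ≠ 0 := fun h => hy (h ▸ isAlgebraic_zero)
  have ha : a ≠ 0 := by rw [← hya]; exact mul_ne_zero hy0 hb
  have hordy : v.ord a = v.ord y + v.ord b := by rw [← hya]; exact v.ord_mul hy0 hb
  have hqa := rep_qOrd N hcusp ha hA
  have hqb := rep_qOrd N hcusp hb hB
  have hqe := rep_qOrd N hcusp he hE
  have ha₁d := rep_mdiff_comp N hA δ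
  have hb₁d := rep_mdiff_comp N hB δ
  obtain ⟨Ya, hYa⟩ := hqa.eventually_ne hw
  obtain ⟨Yb, hYb⟩ := hqb.eventually_ne hw
  obtain ⟨Ye, hYe⟩ := hqe.eventually_ne hw
  have hLa : QBig w 1 (fun z => dH (fun z => A (δ • z)) z / A (δ • z)
      - 2 * π * Complex.I / w * ((v.ord a : ℤ) : ℂ)) := hqa.logDeriv hw
  have hLb : QBig w 1 (fun z => dH (fun z => B (δ • z)) z / B (δ • z)
      - 2 * π * Complex.I / w * ((v.ord b : ℤ) : ℂ)) := hqb.logDeriv hw
  have hR := hLa.sub hLb
  have e10 : (1 : ℤ) + 0 = 1 := by norm_num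
  by_cases hm : v.ord y = 0
  · -- the cusp is not in the support of `y`
    have hDv : D v = 0 := hD0 v hm
    have hnAB : ((v.ord a : ℤ) : ℂ) = ((v.ord b : ℤ) : ℂ) := by
      have : v.ord a = v.ord b := by omega
      exact_mod_cast this
    by_cases hc0 : c = 0
    · have hC0 : C = 0 := rep_zero_eq N (hc0 ▸ hC)
      refine (qBig_zero w 1).congr 0 fun z _ => ?_
      rw [hC0, hDv]
      simp
    · have hG0 : G ≠ 0 := fun h => hc0 (by rw [← hGc, h, zero_mul])
      have hordc : v.ord c = v.ord G + v.ord e := by rw [← hGc]; exact v.ord_mul hG0 he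
      have hqc := rep_qOrd N hcusp hc0 hC
      have hĜ := (hqc.div hqe).qBig
      have hG3 := h3.2 v hm
      by_cases hex : ∃ c₀ : ℂ, 0 < v.ord (y - algebraMap ℂ ↥(FC N) c₀)
      · obtain ⟨c₀, hc₀⟩ := hex
        have hram := Fermat.Agent.H19.rh_ramIdx_of_ord_sub_pos' v hc₀
        have hyc0 : y - algebraMap ℂ ↥(FC N) c₀ ≠ 0 := by
          intro h0
          rw [h0, Place.ord_zero] at hc₀
          exact lt_irrefl _ hc₀
        have hu' : a + algebraMap ℂ ↥(FC N) (-c₀) * b = (y - algebraMap ℂ ↥(FC N) c₀) * b := by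
          rw [← hya, map_neg]
          ring
        have hu0 : a + algebraMap ℂ ↥(FC N) (-c₀) * b ≠ 0 := by
          rw [hu']
          exact mul_ne_zero hyc0 hb
        have hordu : v.ord (a + algebraMap ℂ ↥(FC N) (-c₀) * b)
            = v.ord (y - algebraMap ℂ ↥(FC N) c₀) + v.ord b := by
          rw [hu']
          exact v.ord_mul hyc0 hb
        have hU := rep_add_const_mul N hA hB (-c₀)
        have hqu := rep_qOrd N hcusp hu0 hU
        obtain ⟨Yu, hYu⟩ := hqu.eventually_ne hw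
        have hLu : QBig w 1 (fun z =>
            dH (fun z => A (δ • z) + -c₀ * B (δ • z)) z / (A (δ • z) + -c₀ * B (δ • z))
            - 2 * π * Complex.I / w *
              ((v.ord (a + algebraMap ℂ ↥(FC N) (-c₀) * b) : ℤ) : ℂ)) := hqu.logDeriv hw
        have hdU : ∀ z : ℍ, dH (fun z => A (δ • z) + -c₀ * B (δ • z)) z
            = dH (fun z => A (δ • z)) z + -c₀ * dH (fun z => B (δ • z)) z :=
          fun z => dH_add_smul ha₁d hb₁d (-c₀) z
        have hUa := (hqu.div hqa).qBig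
        have hRu := hLu.sub hLb
        have T := hĜ.mul (hUa.mul ((qBig_const w (2 * π * Complex.I / w *
          (((v.ord (a + algebraMap ℂ ↥(FC N) (-c₀) * b) : ℤ) : ℂ) - ((v.ord b : ℤ) : ℂ)))).add
            (hRu.mono (by norm_num : (0 : ℤ) ≤ 1))))
        have T' := T.mono (k' := 1) (by omega)
        refine T'.congr (max Ya (max Yb Yu)) fun z hz => ?_
        have hza := hYa z (le_trans (le_max_left _ _) hz)
        have hzb := hYb z (le_trans (le_trans (le_max_left _ _) (le_max_right _ _)) hz)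
        have hzu := hYu z (le_trans (le_trans (le_max_right _ _) (le_max_right _ _)) hz)
        beta_reduce at hza hzb hzu ⊢
        rw [hDv, hdU]
        simp only [Int.cast_zero, mul_zero, zero_div, sub_zero]
        exact logForm_alg _ _ _ _ _ _ _ _ _ hza hzb hzu
      · push Not at hex
        have hram0 := ramIdx_eq_zero_of_forall v y (by omega) (fun c => not_lt.mpr (hex c))
        rw [hram0] at hG3
        have T := (hĜ.mono (k' := 1) (by simp at hG3; omega)).mul
          ((qBig_const w (2 * π * Complex.I / w *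
            (((v.ord a : ℤ) : ℂ) - ((v.ord b : ℤ) : ℂ)))).add
            (hR.mono (by norm_num : (0 : ℤ) ≤ 1)))
        rw [e10] at T
        refine T.congr 0 fun z _ => ?_
        rw [hDv]
        simp only [Int.cast_zero, mul_zero, zero_div, sub_zero]
        ring
  · -- the cusp is in the support of `y`
    obtain ⟨-, hval⟩ := h3.1 v hm
    have hmC : ((v.ord y : ℤ) : ℂ) ≠ 0 := by exact_mod_cast hm
    have hc₀m : ((D v : ℤ) : ℂ) / ((v.ord y : ℤ) : ℂ) * ((v.ord y : ℤ) : ℂ) = ((D v : ℤ) : ℂ) :=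
      div_mul_cancel₀ _ hmC
    have hnA : ((v.ord a : ℤ) : ℂ) = ((v.ord y : ℤ) : ℂ) + ((v.ord b : ℤ) : ℂ) := by
      exact_mod_cast hordy
    have claim1 : QBig w 1 (fun z => C (δ • z) / E (δ • z)
        - ((D v : ℤ) : ℂ) / ((v.ord y : ℤ) : ℂ)) := by
      rcases hval with hval | hval
      · have hc : c = algebraMap ℂ ↥(FC N) (((D v : ℤ) : ℂ) / ((v.ord y : ℤ) : ℂ)) * e := by
          rw [← hval, hGc]
        have hrep := rep_const_mul N hE (((D v : ℤ) : ℂ) / ((v.ord y : ℤ) : ℂ))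
        rw [← hc] at hrep
        have hCE := Fermat.Agent.H44.LaurentRel.unique_left hC hrep
        refine (qBig_zero w 1).congr Ye fun z hz => ?_
        have hez := hYe z hz
        beta_reduce at hez ⊢
        rw [hCE]
        beta_reduce
        field_simp
        ring
      · have hGc0 : G - algebraMap ℂ ↥(FC N) (((D v : ℤ) : ℂ) / ((v.ord y : ℤ) : ℂ)) ≠ 0 := by
          intro h0
          rw [h0, Place.ord_zero] at hval
          exact lt_irrefl _ hval
        have hu' : c + algebraMap ℂ ↥(FC N) (-(((D v : ℤ) : ℂ) / ((v.ord y : ℤ) : ℂ))) * e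
            = (G - algebraMap ℂ ↥(FC N) (((D v : ℤ) : ℂ) / ((v.ord y : ℤ) : ℂ))) * e := by
          rw [← hGc, map_neg]
          ring
        have hu0 : c + algebraMap ℂ ↥(FC N) (-(((D v : ℤ) : ℂ) / ((v.ord y : ℤ) : ℂ))) * e
            ≠ 0 := by
          rw [hu']
          exact mul_ne_zero hGc0 he
        have hordu : v.ord (c + algebraMap ℂ ↥(FC N)
            (-(((D v : ℤ) : ℂ) / ((v.ord y : ℤ) : ℂ))) * e)
            = v.ord (G - algebraMap ℂ ↥(FC N) (((D v : ℤ) : ℂ) / ((v.ord y : ℤ) : ℂ)))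
              + v.ord e := by
          rw [hu']
          exact v.ord_mul hGc0 he
        have hU := rep_add_const_mul N hC hE (-(((D v : ℤ) : ℂ) / ((v.ord y : ℤ) : ℂ)))
        have hqu := rep_qOrd N hcusp hu0 hU
        have hdiv := (hqu.div hqe).qBig.mono (k' := 1) (by omega)
        refine hdiv.congr Ye fun z hz => ?_
        have hez := hYe z hz
        beta_reduce at hez ⊢
        field_simp
        ring
    have T1 := claim1.mul ((qBig_const w (2 * π * Complex.I / w * ((v.ord y : ℤ) : ℂ))).add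
      (hR.mono (by norm_num : (0 : ℤ) ≤ 1)))
    have T2 := hR.const_mul (((D v : ℤ) : ℂ) / ((v.ord y : ℤ) : ℂ))
    rw [e10] at T1
    refine (T1.add T2).congr 0 fun z _ => ?_
    linear_combination (2 * π * Complex.I / w) * hc₀m +
      (C (δ • z) / E (δ • z) * (2 * π * Complex.I / w)) * hnA

/-- **[A1-ANLOC-CUSP]** the local behaviour of `logNum / logDen` at the cusps. -/
theorem logFormCusp (N : ℕ) [NeZero N] : LogFormCuspStatement N := by
  intro y G D A B C E hfd hy hD0 h3 δ v w hcusp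
  obtain ⟨a, b, c, e, hb, he, hya, hGc, hA, hB, hC, hE⟩ := hfd
  have hw : 0 < w := hcusp.1
  have hy0 : y ≠ 0 := fun h => hy (h ▸ isAlgebraic_zero)
  have ha : a ≠ 0 := by rw [← hya]; exact mul_ne_zero hy0 hb
  have hAd : MDiff A := Fermat.Agent.H44.LaurentRel.mdifferentiable hA
  have hBd : MDiff B := Fermat.Agent.H44.LaurentRel.mdifferentiable hB
  obtain ⟨Ya, hYa⟩ := (rep_qOrd N hcusp ha hA).eventually_ne hw
  obtain ⟨Yb, hYb⟩ := (rep_qOrd N hcusp hb hB).eventually_ne hw
  obtain ⟨Ye, hYe⟩ := (rep_qOrd N hcusp he hE).eventually_ne hw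
  obtain ⟨C₀, Y, ε, hε, hbound⟩ := (logForm_qBig N y G D A B C E a b c e hb he hya hGc hA hB hC hE
    hy hD0 h3 δ v w hcusp).bound hw
  refine ⟨C₀, max Y (max Ya (max Yb Ye)), ε, hε, fun z hz => ?_⟩
  have hzY : Y ≤ z.im := le_trans (le_max_left _ _) hz
  have hza := hYa z (le_trans (le_trans (le_max_left _ _) (le_max_right _ _)) hz)
  have hzb := hYb z (le_trans (le_trans (le_trans (le_max_left _ _) (le_max_right _ _))
    (le_max_right _ _)) hz)
  have hze := hYe z (le_trans (le_trans (le_trans (le_max_right _ _) (le_max_right _ _))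
    (le_max_right _ _)) hz)
  beta_reduce at hza hzb hze
  refine ⟨mul_ne_zero hze (mul_ne_zero hza hzb), ?_⟩
  have hb' := hbound z hzY
  beta_reduce at hb'
  have hden : denom δ z ^ 2 ≠ 0 := pow_ne_zero _ (denom_ne_zero _ z)
  have e1 : logNum A B C (δ • z) / logDen A B E (δ • z) * (denom δ z ^ 2)⁻¹
      = C (δ • z) / E (δ • z) *
        (dH (fun z => A (δ • z)) z / A (δ • z) - dH (fun z => B (δ • z)) z / B (δ • z)) := by
    simp only [logNum, logDen, dH]
    rw [deriv_comp_smul hAd δ z, deriv_comp_smul hBd δ z]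
    field_simp
  rw [e1]
  exact hb'

end Fermat.Agent.H60.MWDiv

end
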